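/-
P-S16, level-one input (E') of note 542, part 1 (helper24): structure of level-one modular forms
with coefficients in a subring.

For a subring `S ⊆ ℂ` containing `1/1728`, every level-one modular form of weight `k : ℕ` whose
`q`-expansion has coefficients in `S` is, on `q`-expansions, an isobaric polynomial of weight `k`
in `E₄`, `E₆` with coefficients in `S`.
-/
import Mathlib

set_option autoImplicit false

noncomputable section

open UpperHalfPlane ModularForm ModularFormClass MatrixGroups EisensteinSeries PowerSeries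

namespace Fermat.Agent.S16.LevelOne

/-! ### Power series with coefficients in a subring -/

/-- The subring of power series all of whose coefficients lie in the subring `S`. -/
def coeffSubring {R : Type*} [CommRing R] (S : Subring R) : Subring (PowerSeries R) where
  carrier := {f | ∀ n, coeff n f ∈ S}
  mul_mem' := by
    intro f g hf hg n
    rw [coeff_mul]
    exact Subring.sum_mem _ fun x _ => S.mul_mem (hf _) (hg _)
  one_mem' := by
    intro n
    rw [coeff_one]
    split_ifs
    · exact S.one_mem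
    · exact S.zero_mem
  add_mem' := by
    intro f g hf hg n
    rw [map_add]
    exact S.add_mem (hf n) (hg n)
  zero_mem' := by
    intro n
    rw [map_zero]
    exact S.zero_mem
  neg_mem' := by
    intro f hf n
    rw [map_neg]
    exact S.neg_mem (hf n)

theorem mem_coeffSubring {R : Type*} [CommRing R] {S : Subring R} {f : PowerSeries R} :
    f ∈ coeffSubring S ↔ ∀ n, coeff n f ∈ S := Iff.rfl

theorem C_mem_coeffSubring {R : Type*} [CommRing R] {S : Subring R} {c : R} (hc : c ∈ S) :
    C c ∈ coeffSubring S := by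
  intro n
  rw [coeff_C]
  split_ifs
  · exact hc
  · exact S.zero_mem

/-- Division by a power series `A = q + …` with coefficients in `S`. -/
theorem mem_coeffSubring_of_mul {R : Type*} [CommRing R] {S : Subring R} {A B : PowerSeries R}
    (hA : A ∈ coeffSubring S) (hA0 : coeff 0 A = 0) (hA1 : coeff 1 A = 1)
    (hAB : A * B ∈ coeffSubring S) : B ∈ coeffSubring S := by
  intro n
  induction n using Nat.strong_induction_on with
  | _ n ih =>
    have h1 := hAB (n + 1)
    rw [coeff_mul] at h1
    have hmem : ((1, n) : ℕ × ℕ) ∈ Finset.HasAntidiagonal.antidiagonal (n + 1) := by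
      rw [Finset.HasAntidiagonal.mem_antidiagonal]; ring
    rw [← Finset.add_sum_erase _ _ hmem] at h1
    simp only [hA1, one_mul] at h1
    have h2 : ∑ x ∈ (Finset.HasAntidiagonal.antidiagonal (n + 1)).erase (1, n), coeff x.1 A * coeff x.2 B ∈ S := by
      refine Subring.sum_mem _ fun x hx => ?_
      rw [Finset.mem_erase, Finset.HasAntidiagonal.mem_antidiagonal] at hx
      obtain ⟨hne, hsum⟩ := hx
      rcases Nat.eq_zero_or_pos x.1 with h0 | hpos
      · rw [h0, hA0, zero_mul]
        exact S.zero_mem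
      · have hlt : x.2 < n := by
          rcases Nat.lt_or_ge x.2 n with h | h
          · exact h
          · exfalso
            apply hne
            ext <;> simp <;> omega
        exact S.mul_mem (hA _) (ih _ hlt)
    have h3 := S.sub_mem h1 h2
    rwa [add_sub_cancel_right] at h3

/-! ### The `q`-expansions of `E₄`, `E₆`, `Δ` -/

/-- The `q`-expansion of `E₄`. -/
abbrev e4 : PowerSeries ℂ := qExpansion 1 E₄
/-- The `q`-expansion of `E₆`. -/
abbrev e6 : PowerSeries ℂ := qExpansion 1 E₆

theorem e4_coeff (m : ℕ) :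
    coeff m e4 = if m = 0 then 1 else 240 * (ArithmeticFunction.sigma 3 m : ℂ) := by
  rw [e4, E_qExpansion_coeff _ ⟨2, rfl⟩, show bernoulli 4 = -1 / 30 by decide +kernel]
  split_ifs
  · rfl
  · norm_num

theorem e6_coeff (m : ℕ) :
    coeff m e6 = if m = 0 then 1 else -504 * (ArithmeticFunction.sigma 5 m : ℂ) := by
  rw [e6, E_qExpansion_coeff _ ⟨3, rfl⟩, show bernoulli 6 = 1 / 42 by decide +kernel]
  split_ifs
  · rfl
  · norm_num

theorem e4_mem (S : Subring ℂ) : e4 ∈ coeffSubring S := by
  intro n
  rw [e4_coeff]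
  split_ifs
  · exact S.one_mem
  · exact S.mul_mem (by exact_mod_cast natCast_mem S 240) (natCast_mem S _)

theorem e6_mem (S : Subring ℂ) : e6 ∈ coeffSubring S := by
  intro n
  rw [e6_coeff]
  split_ifs
  · exact S.one_mem
  · exact S.mul_mem (by exact_mod_cast intCast_mem S (-504)) (natCast_mem S _)

/-- `(E₄³ - E₆²)/1728` as a modular form of weight 12. -/
def discForm : ModularForm 𝒮ℒ 12 :=
  (1728 : ℂ)⁻¹ • (ModularForm.mcast (by decide) (E₄.pow 3)
      - ModularForm.mcast (by decide) (E₆.pow 2))

theorem coe_discForm : (discForm : ℍ → ℂ) = ModularForm.discriminant := by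
  funext z
  rw [discriminant_eq_E₄_cube_sub_E₆_sq z]
  simp only [discForm, FunLike.coe_smul, FunLike.coe_sub, coe_mcast, ModularForm.coe_pow,
    Pi.smul_apply, Pi.sub_apply, Pi.pow_apply, smul_eq_mul]
  ring

/-- `1728 Δ = E₄³ - E₆²` on `q`-expansions. -/
theorem qExpansion_discriminant :
    qExpansion 1 ModularForm.discriminant = C (1728 : ℂ)⁻¹ * (e4 ^ 3 - e6 ^ 2) := by
  rw [← coe_discForm, discForm, FunLike.coe_smul,
    ModularForm.qExpansion_smul one_pos one_mem_strictPeriods_SL, FunLike.coe_sub,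
    ModularForm.qExpansion_sub one_pos one_mem_strictPeriods_SL, coe_mcast, coe_mcast,
    ModularForm.qExpansion_pow one_pos one_mem_strictPeriods_SL,
    ModularForm.qExpansion_pow one_pos one_mem_strictPeriods_SL, smul_eq_C_mul]

theorem qExpansion_discriminant_mem (S : Subring ℂ) (h1728 : (1728 : ℂ)⁻¹ ∈ S) :
    qExpansion 1 ModularForm.discriminant ∈ coeffSubring S := by
  rw [qExpansion_discriminant]
  exact Subring.mul_mem _ (C_mem_coeffSubring h1728)
    (Subring.sub_mem _ (Subring.pow_mem _ (e4_mem S) 3) (Subring.pow_mem _ (e6_mem S) 2))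

/-- Evaluation of a polynomial with coefficients in `S` at `(e4, e6)`. -/
def evalE (S : Subring ℂ) : MvPolynomial (Fin 2) ↥S →+* PowerSeries ℂ :=
  MvPolynomial.eval₂Hom ((C : ℂ →+* PowerSeries ℂ).comp S.subtype) ![e4, e6]

theorem evalE_C (S : Subring ℂ) (c : ↥S) : evalE S (MvPolynomial.C c) = C (c : ℂ) := by
  simp [evalE]

theorem evalE_X0 (S : Subring ℂ) : evalE S (MvPolynomial.X 0) = e4 := by
  simp [evalE]

theorem evalE_X1 (S : Subring ℂ) : evalE S (MvPolynomial.X 1) = e6 := by
  simp [evalE]

/-- The monomial `E₄^a E₆^b` as a modular form of weight `k = 4 a + 6 b`. -/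
def monoForm (a b k : ℕ) (h : 4 * a + 6 * b = k) : ModularForm 𝒮ℒ (k : ℤ) :=
  ModularForm.mcast (by push_cast [← h]; ring) ((E₄.pow a).mul (E₆.pow b))

theorem qExpansion_monoForm (a b k : ℕ) (h : 4 * a + 6 * b = k) :
    qExpansion 1 (monoForm a b k h) = e4 ^ a * e6 ^ b := by
  rw [monoForm, ModularForm.qExpansion_mcast,
    ModularForm.qExpansion_mul one_pos one_mem_strictPeriods_SL,
    ModularForm.qExpansion_pow one_pos one_mem_strictPeriods_SL,
    ModularForm.qExpansion_pow one_pos one_mem_strictPeriods_SL]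

theorem exists_exponents {k : ℕ} (hk : Even k) (hk4 : 4 ≤ k) : ∃ a b : ℕ, 4 * a + 6 * b = k := by
  obtain ⟨m, rfl⟩ := hk
  rcases Nat.even_or_odd' m with ⟨t, rfl | rfl⟩
  · exact ⟨t, 0, by ring⟩
  · exact ⟨t - 1, 1, by omega⟩

theorem coeff_zero_e4 : coeff 0 e4 = 1 := by rw [e4_coeff]; simp
theorem coeff_zero_e6 : coeff 0 e6 = 1 := by rw [e6_coeff]; simp

theorem coeff_zero_mono (a b : ℕ) : coeff 0 (e4 ^ a * e6 ^ b) = 1 := by
  simp only [coeff_zero_eq_constantCoeff, map_mul, map_pow]
  rw [← coeff_zero_eq_constantCoeff_apply, ← coeff_zero_eq_constantCoeff_apply, coeff_zero_e4,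
    coeff_zero_e6, one_pow, one_pow, one_mul]

theorem isWH_mono (S : Subring ℂ) (c : ↥S) (a b k : ℕ) (h : 4 * a + 6 * b = k) :
    (MvPolynomial.C c * MvPolynomial.X 0 ^ a * MvPolynomial.X 1 ^ b :
      MvPolynomial (Fin 2) ↥S).IsWeightedHomogeneous ![4, 6] k := by
  have h0 := (MvPolynomial.isWeightedHomogeneous_X (R := ↥S) ![4, 6] (0 : Fin 2)).pow a
  have h1 := (MvPolynomial.isWeightedHomogeneous_X (R := ↥S) ![4, 6] (1 : Fin 2)).pow b
  have hc := MvPolynomial.isWeightedHomogeneous_C (R := ↥S) ![4, 6] c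
  have := (hc.mul h0).mul h1
  convert this using 1
  simp only [Matrix.cons_val_zero, Matrix.cons_val_one, smul_eq_mul, zero_add]
  omega

/-- **Structure theorem**: a level-one modular form of weight `k` whose `q`-expansion has
coefficients in a subring `S ∋ 1/1728` is, on `q`-expansions, an isobaric polynomial of weight `k`
in `E₄`, `E₆` with coefficients in `S`. -/
theorem exists_poly_of_coeff_mem (S : Subring ℂ) (h1728 : (1728 : ℂ)⁻¹ ∈ S) :
    ∀ (k : ℕ) (F : ModularForm 𝒮ℒ (k : ℤ)), qExpansion 1 F ∈ coeffSubring S →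
      ∃ P : MvPolynomial (Fin 2) ↥S, P.IsWeightedHomogeneous ![4, 6] k ∧
        qExpansion 1 F = evalE S P := by
  intro k
  induction k using Nat.strong_induction_on with
  | _ k ih =>
    intro F hF
    have hzero : ∀ G : ModularForm 𝒮ℒ (k : ℤ), G = 0 →
        ∃ P : MvPolynomial (Fin 2) ↥S, P.IsWeightedHomogeneous ![4, 6] k ∧
          qExpansion 1 G = evalE S P := by
      intro G hG
      refine ⟨0, MvPolynomial.isWeightedHomogeneous_zero _ _ _, ?_⟩
      rw [hG, map_zero, FunLike.coe_zero, qExpansion_zero]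
    rcases Nat.even_or_odd k with hk | hk
    swap
    · exact hzero F (levelOne_odd_weight_eq_zero (by exact_mod_cast hk) F)
    rcases Nat.lt_or_ge k 4 with hk4 | hk4
    · have hk02 : k = 0 ∨ k = 2 := by
        obtain ⟨m, rfl⟩ := hk
        omega
      rcases hk02 with rfl | rfl
      · -- weight 0: constants
        obtain ⟨c, hc⟩ := levelOne_weight_zero_const F
        have hq : qExpansion 1 F = C c := by
          have h1 : (F : ℍ → ℂ) = ((c • (1 : ModularForm 𝒮ℒ 0) : ModularForm 𝒮ℒ 0) : ℍ → ℂ) := by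
            rw [hc]
            funext z
            simp
          rw [h1, FunLike.coe_smul, ModularForm.qExpansion_smul one_pos one_mem_strictPeriods_SL,
            ModularForm.qExpansion_one, smul_eq_C_mul, mul_one]
        have hcS : c ∈ S := by
          have := hF 0
          rwa [hq, coeff_zero_C] at this
        refine ⟨MvPolynomial.C ⟨c, hcS⟩, MvPolynomial.isWeightedHomogeneous_C _ _, ?_⟩
        rw [hq, evalE_C]
      · exact hzero F (rank_zero_iff_forall_zero.mp levelOne_weight_two_rank_zero F)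
    · obtain ⟨a, b, hab⟩ := exists_exponents hk hk4
      have hcS : coeff 0 (qExpansion 1 F) ∈ S := hF 0
      set c : ℂ := coeff 0 (qExpansion 1 F) with hc
      -- subtract the constant term
      set F₁ : ModularForm 𝒮ℒ (k : ℤ) := F - c • monoForm a b k hab with hF₁
      have hq1 : qExpansion 1 F₁ = qExpansion 1 F - C c * (e4 ^ a * e6 ^ b) := by
        rw [hF₁, FunLike.coe_sub, ModularForm.qExpansion_sub one_pos one_mem_strictPeriods_SL,
          FunLike.coe_smul, ModularForm.qExpansion_smul one_pos one_mem_strictPeriods_SL,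
          qExpansion_monoForm, smul_eq_C_mul]
      have h0 : coeff 0 (qExpansion 1 F₁) = 0 := by
        rw [hq1, map_sub, coeff_C_mul, coeff_zero_mono, mul_one, ← hc, sub_self]
      have hq2 := qExpansion_eq_qExpansion_discriminant_mul F₁ h0
      have hF₁S : qExpansion 1 F₁ ∈ coeffSubring S := by
        rw [hq1]
        exact Subring.sub_mem _ hF (Subring.mul_mem _ (C_mem_coeffSubring hcS)
          (Subring.mul_mem _ (Subring.pow_mem _ (e4_mem S) a) (Subring.pow_mem _ (e6_mem S) b)))
      set F₂ : ModularForm 𝒮ℒ ((k : ℤ) - 12) :=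
        CuspForm.discriminantEquiv (toCuspForm F₁ h0) with hF₂
      have hΔ0 : coeff 0 (qExpansion 1 ModularForm.discriminant) = 0 := by
        have := discriminant_qExpansion_order
        exact coeff_of_lt_order 0 (by rw [this]; exact_mod_cast Nat.zero_lt_one)
      have hF₂S : qExpansion 1 F₂ ∈ coeffSubring S :=
        mem_coeffSubring_of_mul (qExpansion_discriminant_mem S h1728) hΔ0
          discriminant_qExpansion_coeff_one (hq2 ▸ hF₁S)
      have hFq : qExpansion 1 F = C c * (e4 ^ a * e6 ^ b)
          + C (1728 : ℂ)⁻¹ * (e4 ^ 3 - e6 ^ 2) * qExpansion 1 F₂ := by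
        rw [← qExpansion_discriminant, ← hq2, hq1]
        ring
      rcases Nat.lt_or_ge k 12 with hk12 | hk12
      · have hF₂0 : F₂ = 0 :=
          rank_zero_iff_forall_zero.mp (levelOne_neg_weight_rank_zero (by omega)) F₂
        refine ⟨MvPolynomial.C ⟨c, hcS⟩ * MvPolynomial.X 0 ^ a * MvPolynomial.X 1 ^ b,
          isWH_mono S _ a b k hab, ?_⟩
        rw [hFq, hF₂0, FunLike.coe_zero, qExpansion_zero, mul_zero, add_zero, map_mul, map_mul,
          map_pow, map_pow, evalE_C, evalE_X0, evalE_X1, mul_assoc]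
      · set F₂' : ModularForm 𝒮ℒ ((k - 12 : ℕ) : ℤ) := ModularForm.mcast (by omega) F₂ with hF₂'
        obtain ⟨P₂, hP₂h, hP₂⟩ := ih (k - 12) (by omega) F₂' (by
          rw [hF₂', ModularForm.qExpansion_mcast]; exact hF₂S)
        rw [hF₂', ModularForm.qExpansion_mcast] at hP₂
        refine ⟨MvPolynomial.C ⟨c, hcS⟩ * MvPolynomial.X 0 ^ a * MvPolynomial.X 1 ^ b
          + MvPolynomial.C ⟨(1728 : ℂ)⁻¹, h1728⟩
            * (MvPolynomial.X 0 ^ 3 - MvPolynomial.X 1 ^ 2) * P₂, ?_, ?_⟩
        · refine (isWH_mono S _ a b k hab).add ?_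
          have h3 : (MvPolynomial.X 0 ^ 3 :
              MvPolynomial (Fin 2) ↥S).IsWeightedHomogeneous ![4, 6] 12 :=
            (MvPolynomial.isWeightedHomogeneous_X (R := ↥S) ![4, 6] (0 : Fin 2)).pow 3
          have h2 : (MvPolynomial.X 1 ^ 2 :
              MvPolynomial (Fin 2) ↥S).IsWeightedHomogeneous ![4, 6] 12 :=
            (MvPolynomial.isWeightedHomogeneous_X (R := ↥S) ![4, 6] (1 : Fin 2)).pow 2
          have h32 : (MvPolynomial.X 0 ^ 3 - MvPolynomial.X 1 ^ 2 :
              MvPolynomial (Fin 2) ↥S).IsWeightedHomogeneous ![4, 6] 12 := h3.sub h2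
          have hc' := MvPolynomial.isWeightedHomogeneous_C (R := ↥S) ![4, 6]
            (⟨(1728 : ℂ)⁻¹, h1728⟩ : ↥S)
          have := (hc'.mul h32).mul hP₂h
          convert this using 1
          omega
        · rw [hFq, hP₂, map_add, map_mul, map_mul, map_mul, map_mul, map_sub, map_pow, map_pow,
            map_pow, map_pow, evalE_C, evalE_C, evalE_X0, evalE_X1, mul_assoc]
          ring

end Fermat.Agent.S16.LevelOne
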